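/-
S55 / block CHI2 : definitions.  Iterates of an equivariant endomorphism `D`, the filtration
`J_k = ker D^k`, the maps `J_j ⊆ J_k` and `D : J_(k+1) → J_k`.
-/
import Fermat.Agent.S55.Coh.Cyclic

set_option autoImplicit false

namespace Fermat.Agent.S55

variable {G : Type} [Group G] {B : Type} [AddCommGroup B] [DistribMulAction G B]

/-- The iterates of an equivariant endomorphism. -/
def powHom (D : B →+[G] B) : ℕ → (B →+[G] B)
  | 0 => DistribMulActionHom.id G
  | k + 1 => D.comp (powHom D k)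

@[simp] theorem powHom_zero (D : B →+[G] B) (b : B) : powHom D 0 b = b := rfl

theorem powHom_succ (D : B →+[G] B) (k : ℕ) (b : B) : powHom D (k + 1) b = D (powHom D k b) := rfl

theorem powHom_succ' (D : B →+[G] B) (k : ℕ) (b : B) :
    powHom D (k + 1) b = powHom D k (D b) := by
  induction k with
  | zero => rfl
  | succ k ih => rw [powHom_succ, ih, powHom_succ]

theorem powHom_add (D : B →+[G] B) (j k : ℕ) (b : B) :
    powHom D (j + k) b = powHom D j (powHom D k b) := by
  induction j with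
  | zero => rw [Nat.zero_add]; rfl
  | succ j ih => rw [Nat.succ_add, powHom_succ, ih, powHom_succ]

/-- `J_k = ker D^k`. -/
def kerPow (D : B →+[G] B) (k : ℕ) : GSub G B := GSub.ker (powHom D k)

theorem mem_kerPow (D : B →+[G] B) (k : ℕ) (b : B) :
    b ∈ (kerPow D k).toAddSubgroup ↔ powHom D k b = 0 := Iff.rfl

theorem kerPow_mono (D : B →+[G] B) {j k : ℕ} (h : j ≤ k) {b : B}
    (hb : b ∈ (kerPow D j).toAddSubgroup) : b ∈ (kerPow D k).toAddSubgroup := by
  obtain ⟨i, rfl⟩ := Nat.exists_eq_add_of_le' h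
  rw [mem_kerPow] at hb ⊢
  rw [powHom_add, hb, map_zero]

/-- `J_j ⊆ J_k` for `j ≤ k`. -/
def kerPowIncl (D : B →+[G] B) {j k : ℕ} (h : j ≤ k) : (kerPow D j).Mod →+[G] (kerPow D k).Mod :=
  (kerPow D k).codRestrict (kerPow D j).inclG fun a => kerPow_mono D h ((kerPow D j).incl_mem a)

@[simp] theorem incl_kerPowIncl (D : B →+[G] B) {j k : ℕ} (h : j ≤ k) (a : (kerPow D j).Mod) :
    (kerPow D k).incl (kerPowIncl D h a) = (kerPow D j).incl a := rfl

/-- `D : J_(k+1) → J_k`. -/
def kerPowStep (D : B →+[G] B) (k : ℕ) : (kerPow D (k + 1)).Mod →+[G] (kerPow D k).Mod :=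
  (kerPow D k).codRestrict (D.comp (kerPow D (k + 1)).inclG) fun a => by
    have := (kerPow D (k + 1)).incl_mem a
    rw [mem_kerPow, powHom_succ'] at this
    exact this

@[simp] theorem incl_kerPowStep (D : B →+[G] B) (k : ℕ) (a : (kerPow D (k + 1)).Mod) :
    (kerPow D k).incl (kerPowStep D k a) = D ((kerPow D (k + 1)).incl a) := rfl

end Fermat.Agent.S55
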