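/-
S55 / block CHI2-A : the nine-term count in the long exact cohomology sequence.
-/
import Fermat.Agent.S55.Chi2.Defs
import Fermat.Agent.S55.Coh.LESExact

set_option autoImplicit false

namespace Fermat.Agent.S55

variable {G : Type} [Group G]

variable {𝓝 : LevelSys G} {A B C : Type} [AddCommGroup A] [DistribMulAction G A] [AddCommGroup B]
  [DistribMulAction G B] [AddCommGroup C] [DistribMulAction G C]

/-- A1. -/
theorem card_eq_card_ker_mul_card_range {M N : Type} [AddCommGroup M] [AddCommGroup N]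
    (f : M →+ N) : Nat.card M = Nat.card f.ker * Nat.card f.range := by
  rw [← AddSubgroup.index_ker f, AddSubgroup.card_mul_index]

/-- the count at the middle term of an exact pair -/
theorem chi2_card_of_exact {M N P : Type} [AddCommGroup M] [AddCommGroup N] [AddCommGroup P]
    {f : M →+ N} {g : N →+ P} (h : Function.Exact f g) :
    Nat.card N = Nat.card f.range * Nat.card g.range := by
  rw [card_eq_card_ker_mul_card_range g, (AddMonoidHom.exact_iff.1 h)]

/-- the count at the first term -/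
theorem chi2_card_of_injective {M N : Type} [AddCommGroup M] [AddCommGroup N]
    {f : M →+ N} (h : Function.Injective f) : Nat.card M = Nat.card f.range := by
  rw [card_eq_card_ker_mul_card_range f, (AddMonoidHom.ker_eq_bot_iff f).2 h,
    AddSubgroup.card_bot, one_mul]

/-- A2: the nine-term count (true unconditionally with the convention `Nat.card = 0` for infinite
types). -/
theorem Hsm.card_nine_term [Smooth 𝓝 B] {φ : A →+[G] B} {ψ : B →+[G] C} (h : ShortExact φ ψ) :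
    Nat.card (Hsm 𝓝 A 0) * Nat.card (Hsm 𝓝 C 0) * Nat.card (Hsm 𝓝 B 1) * Nat.card (Hsm 𝓝 A 2) *
        Nat.card (Hsm 𝓝 C 2) =
      Nat.card (Hsm 𝓝 B 0) * Nat.card (Hsm 𝓝 A 1) * Nat.card (Hsm 𝓝 C 1) * Nat.card (Hsm 𝓝 B 2) *
        Nat.card (Hsm.map (𝓝 := 𝓝) φ 3).ker := by
  rw [chi2_card_of_injective (Hsm.map_injective_zero (𝓝 := 𝓝) h.inj),
    chi2_card_of_exact (Hsm.exact_map_map (𝓝 := 𝓝) h 0),
    chi2_card_of_exact (Hsm.exact_map_delta (𝓝 := 𝓝) h 0),
    chi2_card_of_exact (Hsm.exact_delta_map (𝓝 := 𝓝) h 0),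
    chi2_card_of_exact (Hsm.exact_map_map (𝓝 := 𝓝) h 1),
    chi2_card_of_exact (Hsm.exact_map_delta (𝓝 := 𝓝) h 1),
    chi2_card_of_exact (Hsm.exact_delta_map (𝓝 := 𝓝) h 1),
    chi2_card_of_exact (Hsm.exact_map_map (𝓝 := 𝓝) h 2),
    chi2_card_of_exact (Hsm.exact_map_delta (𝓝 := 𝓝) h 2),
    AddMonoidHom.exact_iff.1 (Hsm.exact_delta_map (𝓝 := 𝓝) h 2)]
  ring

/-- A3. -/
theorem Hsm.finite_of_shortExact [Smooth 𝓝 B] {φ : A →+[G] B} {ψ : B →+[G] C}
    (h : ShortExact φ ψ) (n : ℕ) (hA : Finite (Hsm 𝓝 A n)) (hC : Finite (Hsm 𝓝 C n)) :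
    Finite (Hsm 𝓝 B n) := by
  apply Nat.finite_of_card_ne_zero
  rw [chi2_card_of_exact (Hsm.exact_map_map (𝓝 := 𝓝) h n)]
  have h1 : Finite (Hsm.map (𝓝 := 𝓝) φ n).range :=
    Set.finite_coe_iff.2 (Set.finite_range (Hsm.map (𝓝 := 𝓝) φ n))
  exact mul_ne_zero Nat.card_pos.ne' Nat.card_pos.ne'

end Fermat.Agent.S55
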