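/-
S55 / block CHI2, section CHI2-C : `(σ - 1)^(p-1) = 1 + σ + ⋯ + σ^(p-1)` and `(σ - 1)^p = 0` on
`Map(X', A)` when `p A = 0`.
-/
import Fermat.Agent.S55.Chi2.Defs

set_option autoImplicit false

namespace Fermat.Agent.S55

open Polynomial in
/-- `(X - 1)^(p-1) = 1 + X + ⋯ + X^(p-1)` in characteristic `p`. -/
theorem chi2_X_sub_one_pow_pred {p : ℕ} (hp : p.Prime) :
    ((X : (ZMod p)[X]) - 1) ^ (p - 1) = ∑ j ∈ Finset.range p, (X : (ZMod p)[X]) ^ j := by
  have : Fact p.Prime := ⟨hp⟩
  have hne : ((X : (ZMod p)[X]) - 1) ≠ 0 := by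
    have := Polynomial.X_sub_C_ne_zero (1 : ZMod p)
    rwa [map_one] at this
  apply mul_right_cancel₀ hne
  rw [← pow_succ, Nat.sub_add_cancel hp.one_le, geom_sum_mul, sub_pow_char, one_pow]

theorem chi2_end_identity {p : ℕ} (hp : p.Prime) {B : Type*} [AddCommGroup B] [Module (ZMod p) B]
    (s : Module.End (ZMod p) B) : (s - 1) ^ (p - 1) = ∑ j ∈ Finset.range p, s ^ j := by
  have := congrArg (Polynomial.aeval s) (chi2_X_sub_one_pow_pred hp)
  simpa using this

theorem chi2_iterate_identity_aux {p : ℕ} (hp : p.Prime) {B : Type*} [AddCommGroup B]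
    [Module (ZMod p) B] (s : B →+ B) (b : B) :
    (fun x => s x - x)^[p - 1] b = ∑ j ∈ Finset.range p, s^[j] b := by
  have h1 : ∀ (k : ℕ) (g : B), (fun x => s x - x)^[k] g = ((s.toZModLinearMap p - 1) ^ k) g := by
    intro k
    induction k with
    | zero => intro g; rfl
    | succ k ih =>
      intro g
      rw [Function.iterate_succ_apply', ih, pow_succ', Module.End.mul_apply]
      rfl
  have h2 : ∀ (j : ℕ) (g : B), ((s.toZModLinearMap p) ^ j) g = s^[j] g := by
    intro j
    induction j with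
    | zero => intro g; rfl
    | succ j ih =>
      intro g
      rw [pow_succ', Module.End.mul_apply, ih, Function.iterate_succ_apply']
      rfl
  rw [h1, chi2_end_identity hp, LinearMap.sum_apply]
  exact Finset.sum_congr rfl fun j _ => h2 j b

/-- In an abelian group killed by `p`: `(s - 1)^(p-1) = 1 + s + ⋯ + s^(p-1)`. -/
theorem chi2_iterate_identity {p : ℕ} (hp : p.Prime) {B : Type*} [AddCommGroup B]
    (hB : ∀ b : B, p • b = 0) (s : B →+ B) (b : B) :
    (fun x => s x - x)^[p - 1] b = ∑ j ∈ Finset.range p, s^[j] b :=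
  @chi2_iterate_identity_aux p hp B _ (AddCommGroup.zmodModule hB) s b

variable {G : Type} [Group G]

variable {X' X : Type} [MulAction G X'] [MulAction G X] {u : X' →[G] X} {σ : X' →[G] X'} {p : ℕ}
  {A : Type} [AddCommGroup A] [DistribMulAction G A]

/-- C1. -/
theorem CyclicCover.powHom_sigmaSub_pred [Finite X'] (h : CyclicCover u σ p) (hp : p.Prime)
    (hA : ∀ a : A, p • a = 0) (f : IndMod X' A) :
    powHom (IndMod.sigmaSub A σ) (p - 1) f = IndMod.pull A u (IndMod.push A u f) := by
  have hB : ∀ g : IndMod X' A, p • g = 0 := by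
    intro g
    ext x
    rw [IndMod.nsmul_apply, hA]
    rfl
  set s : IndMod X' A →+ IndMod X' A :=
    ((IndMod.pull A σ : IndMod X' A →+[G] IndMod X' A) : IndMod X' A →+ IndMod X' A) with hs
  have h1 : ∀ (k : ℕ) (g : IndMod X' A),
      powHom (IndMod.sigmaSub A σ) k g = (fun x => s x - x)^[k] g := by
    intro k
    induction k with
    | zero => intro g; rfl
    | succ k ih =>
      intro g
      rw [powHom_succ, ih, Function.iterate_succ_apply']
      rfl
  have h2 : ∀ (j : ℕ) (g : IndMod X' A) (y : X'), (s^[j] g) y = g (σ^[j] y) := by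
    intro j
    induction j with
    | zero => intro g y; rfl
    | succ j ih =>
      intro g y
      rw [Function.iterate_succ_apply, ih, Function.iterate_succ_apply']
      rfl
  ext y
  rw [h1, chi2_iterate_identity hp hB, IndMod.finset_sum_apply, h.pull_push_apply]
  exact Finset.sum_congr rfl fun j _ => h2 j f y

/-- C2. -/
theorem CyclicCover.powHom_sigmaSub_self [Finite X'] (h : CyclicCover u σ p) (hp : p.Prime)
    (hA : ∀ a : A, p • a = 0) (f : IndMod X' A) : powHom (IndMod.sigmaSub A σ) p f = 0 := by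
  have hp1 : p = (p - 1) + 1 := (Nat.sub_add_cancel hp.one_le).symm
  have h1 : powHom (IndMod.sigmaSub A σ) ((p - 1) + 1) f = 0 := by
    rw [powHom_succ, h.powHom_sigmaSub_pred hp hA, h.sigmaSub_pull]
  rwa [← hp1] at h1

end Fermat.Agent.S55
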