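/-
S55 / block CHI2, section D: the filtration `J_k = ker (σ^* - 1)^k` of `A_X'` for a cyclic cover of
prime degree `p`, `p A = 0`:  `J_1 = A_X`, `J_p = A_X'`, `0 → J_1 → J_(k+1) → J_k → 0` for `k < p`.
-/
import Fermat.Agent.S55.Chi2.Defs
import Fermat.Agent.S55.Chi2.Norm
import Fermat.Agent.S55.Coh.LES

set_option autoImplicit false

namespace Fermat.Agent.S55

variable {G : Type} [Group G]

section Dsec

variable {X' X : Type} [MulAction G X'] [MulAction G X] {u : X' →[G] X} {σ : X' →[G] X'} {p : ℕ}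
  {A : Type} [AddCommGroup A] [DistribMulAction G A]

/-- D1: `0 → J_1 → J_(k+1) → J_k → 0`. -/
theorem CyclicCover.shortExact_kerPow [Finite X'] (h : CyclicCover u σ p) (hp : p.Prime)
    (hA : ∀ a : A, p • a = 0) (k : ℕ) (hk : k + 1 ≤ p) :
    ShortExact (kerPowIncl (IndMod.sigmaSub A σ) (Nat.le_add_left 1 k))
      (kerPowStep (IndMod.sigmaSub A σ) k) where
  inj := by
    intro a b hab
    apply (kerPow (IndMod.sigmaSub A σ) 1).incl_injective
    have := congrArg (kerPow (IndMod.sigmaSub A σ) (k + 1)).incl hab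
    rwa [incl_kerPowIncl, incl_kerPowIncl] at this
  exact := by
    intro b
    constructor
    · intro hb
      have h1 := congrArg (kerPow (IndMod.sigmaSub A σ) k).incl hb
      rw [incl_kerPowStep, map_zero] at h1
      refine ⟨(kerPow (IndMod.sigmaSub A σ) 1).mkMod
        ((kerPow (IndMod.sigmaSub A σ) (k + 1)).incl b) h1, ?_⟩
      apply (kerPow (IndMod.sigmaSub A σ) (k + 1)).incl_injective
      rw [incl_kerPowIncl, GSub.incl_mkMod]
    · rintro ⟨a, rfl⟩
      apply (kerPow (IndMod.sigmaSub A σ) k).incl_injective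
      rw [incl_kerPowStep, incl_kerPowIncl, map_zero]
      exact (kerPow (IndMod.sigmaSub A σ) 1).incl_mem a
  surj := by
    intro c
    have hc := (kerPow (IndMod.sigmaSub A σ) k).incl_mem c
    have hc' : (kerPow (IndMod.sigmaSub A σ) k).incl c ∈
        (kerPow (IndMod.sigmaSub A σ) (p - 1)).toAddSubgroup :=
      kerPow_mono _ (by omega) hc
    rw [mem_kerPow, h.powHom_sigmaSub_pred hp hA] at hc'
    have hpush : IndMod.push A u ((kerPow (IndMod.sigmaSub A σ) k).incl c) = 0 := by
      apply h.pull_injective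
      rw [hc', map_zero]
    obtain ⟨g, hg⟩ := h.exists_sigmaSub_eq hpush
    have hgmem : g ∈ (kerPow (IndMod.sigmaSub A σ) (k + 1)).toAddSubgroup := by
      rw [mem_kerPow, powHom_succ', hg]
      exact hc
    refine ⟨(kerPow (IndMod.sigmaSub A σ) (k + 1)).mkMod g hgmem, ?_⟩
    apply (kerPow (IndMod.sigmaSub A σ) k).incl_injective
    rw [incl_kerPowStep, GSub.incl_mkMod, hg]

/-- `A_X → J_1`. -/
def CyclicCover.toKerPowOne (h : CyclicCover u σ p) (A : Type) [AddCommGroup A]
    [DistribMulAction G A] : IndMod X A →+[G] (kerPow (IndMod.sigmaSub A σ) 1).Mod :=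
  (kerPow (IndMod.sigmaSub A σ) 1).codRestrict (IndMod.pull A u) fun a => h.sigmaSub_pull a

/-- D2. -/
theorem CyclicCover.toKerPowOne_bijective (h : CyclicCover u σ p) :
    Function.Bijective (h.toKerPowOne A) := by
  constructor
  · intro a b hab
    apply h.pull_injective (A := A)
    exact congrArg (kerPow (IndMod.sigmaSub A σ) 1).incl hab
  · intro c
    obtain ⟨a, ha⟩ := h.exists_pull_eq (f := (kerPow (IndMod.sigmaSub A σ) 1).incl c)
      ((kerPow (IndMod.sigmaSub A σ) 1).incl_mem c)
    refine ⟨a, ?_⟩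
    apply (kerPow (IndMod.sigmaSub A σ) 1).incl_injective
    exact ha

/-- D3: `J_p = B`. -/
theorem CyclicCover.inclG_kerPow_bijective [Finite X'] (h : CyclicCover u σ p) (hp : p.Prime)
    (hA : ∀ a : A, p • a = 0) :
    Function.Bijective (kerPow (IndMod.sigmaSub A σ) p).inclG := by
  refine ⟨GSub.inclG_injective _, fun f => ?_⟩
  exact ⟨(kerPow (IndMod.sigmaSub A σ) p).mkMod f (h.powHom_sigmaSub_self hp hA f), rfl⟩

end Dsec

end Fermat.Agent.S55
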