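/-
S55 / block CHI2-B : the abstract induction on a tower `0 → M 1 → M (k+1) → M k → 0`.
-/
import Fermat.Agent.S55.Chi2.Count

set_option autoImplicit false

namespace Fermat.Agent.S55

variable {G : Type} [Group G]

variable {𝓝 : LevelSys G}

/-- the pure counting step -/
private theorem chi2_step {a a₁ xk xk1 yk yk1 κ E : ℕ} (k : ℕ) (hx : xk ≠ 0)
    (h : a * xk * yk1 = xk1 * a₁ * yk * κ) (hE : a ^ k * yk = xk * a₁ ^ k * E) :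
    a ^ (k + 1) * yk1 = xk1 * a₁ ^ (k + 1) * (E * κ) := by
  apply Nat.eq_of_mul_eq_mul_left (Nat.pos_of_ne_zero hx)
  calc xk * (a ^ (k + 1) * yk1) = a ^ k * (a * xk * yk1) := by ring
    _ = a ^ k * (xk1 * a₁ * yk * κ) := by rw [h]
    _ = (a ^ k * yk) * (xk1 * a₁ * κ) := by ring
    _ = (xk * a₁ ^ k * E) * (xk1 * a₁ * κ) := by rw [hE]
    _ = xk * (xk1 * a₁ ^ (k + 1) * (E * κ)) := by ring

/-- B1: a tower `M 1, …, M p` with exact sequences `0 → M 1 → M (k+1) → M k → 0`. -/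
theorem Hsm.injective_of_tower (M : ℕ → Type) [∀ k, AddCommGroup (M k)]
    [∀ k, DistribMulAction G (M k)] [∀ k, Smooth 𝓝 (M k)] (p : ℕ) (hp : 2 ≤ p)
    (i : ∀ k, M 1 →+[G] M (k + 1)) (d : ∀ k, M (k + 1) →+[G] M k)
    (hex : ∀ k, 1 ≤ k → k + 1 ≤ p → ShortExact (i k) (d k))
    (hfin : ∀ j ≤ 2, Finite (Hsm 𝓝 (M 1) j))
    (hchi : Nat.card (Hsm 𝓝 (M p) 0) * Nat.card (Hsm 𝓝 (M p) 2) * Nat.card (Hsm 𝓝 (M 1) 1) ^ p =
      Nat.card (Hsm 𝓝 (M p) 1) * (Nat.card (Hsm 𝓝 (M 1) 0) * Nat.card (Hsm 𝓝 (M 1) 2)) ^ p) :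
    ∀ x : Hsm 𝓝 (M 1) 3, Hsm.map (i (p - 1)) 3 x = 0 → x = 0 := by
  obtain ⟨m, rfl⟩ : ∃ m, p = m + 1 := ⟨p - 1, by omega⟩
  have hm : 1 ≤ m := by omega
  show ∀ x : Hsm 𝓝 (M 1) 3, Hsm.map (i m) 3 x = 0 → x = 0
  -- Step 1 : finiteness
  have hF : ∀ k, 1 ≤ k → k ≤ m + 1 → ∀ j ≤ 2, Finite (Hsm 𝓝 (M k) j) := by
    intro k hk
    induction k, hk using Nat.le_induction with
    | base => exact fun _ => hfin
    | succ k hk ih =>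
      intro hk1 j hj
      exact Hsm.finite_of_shortExact (hex k hk hk1) j (hfin j hj) (ih (by omega) j hj)
  have hne : ∀ k, 1 ≤ k → k ≤ m + 1 → ∀ j ≤ 2, Nat.card (Hsm 𝓝 (M k) j) ≠ 0 := by
    intro k hk hk1 j hj
    have := hF k hk hk1 j hj
    exact Nat.card_pos.ne'
  -- Step 2 : the nine-term count
  have hcount : ∀ k, 1 ≤ k → k + 1 ≤ m + 1 →
      (Nat.card (Hsm 𝓝 (M 1) 0) * Nat.card (Hsm 𝓝 (M 1) 2)) *
        (Nat.card (Hsm 𝓝 (M k) 0) * Nat.card (Hsm 𝓝 (M k) 2)) * Nat.card (Hsm 𝓝 (M (k + 1)) 1) =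
      (Nat.card (Hsm 𝓝 (M (k + 1)) 0) * Nat.card (Hsm 𝓝 (M (k + 1)) 2)) *
        Nat.card (Hsm 𝓝 (M 1) 1) * Nat.card (Hsm 𝓝 (M k) 1) *
        Nat.card (Hsm.map (𝓝 := 𝓝) (i k) 3).ker := by
    intro k hk hk1
    have h := Hsm.card_nine_term (𝓝 := 𝓝) (hex k hk hk1)
    calc _ = Nat.card (Hsm 𝓝 (M 1) 0) * Nat.card (Hsm 𝓝 (M k) 0) *
          Nat.card (Hsm 𝓝 (M (k + 1)) 1) * Nat.card (Hsm 𝓝 (M 1) 2) *
          Nat.card (Hsm 𝓝 (M k) 2) := by ring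
      _ = _ := by rw [h]; ring
  -- Step 3 : the induction
  have hE : ∀ k, 1 ≤ k → k ≤ m + 1 → ∃ E : ℕ,
      (Nat.card (Hsm 𝓝 (M 1) 0) * Nat.card (Hsm 𝓝 (M 1) 2)) ^ k * Nat.card (Hsm 𝓝 (M k) 1) =
        (Nat.card (Hsm 𝓝 (M k) 0) * Nat.card (Hsm 𝓝 (M k) 2)) *
          Nat.card (Hsm 𝓝 (M 1) 1) ^ k * E := by
    intro k hk
    induction k, hk using Nat.le_induction with
    | base => exact fun _ => ⟨1, by ring⟩
    | succ k hk ih =>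
      intro hk1
      obtain ⟨E, hE⟩ := ih (by omega)
      exact ⟨_, chi2_step k (mul_ne_zero (hne k hk (by omega) 0 (by omega))
        (hne k hk (by omega) 2 le_rfl)) (hcount k hk hk1) hE⟩
  -- Step 4 : conclusion
  obtain ⟨E, hE⟩ := hE m hm (by omega)
  have h1 := chi2_step m (mul_ne_zero (hne m hm (by omega) 0 (by omega))
    (hne m hm (by omega) 2 le_rfl)) (hcount m hm le_rfl) hE
  rw [mul_comm, ← hchi] at h1
  have h0 : Nat.card (Hsm 𝓝 (M (m + 1)) 0) * Nat.card (Hsm 𝓝 (M (m + 1)) 2) *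
      Nat.card (Hsm 𝓝 (M 1) 1) ^ (m + 1) ≠ 0 :=
    mul_ne_zero (mul_ne_zero (hne _ (by omega) le_rfl 0 (by omega)) (hne _ (by omega) le_rfl 2 le_rfl))
      (pow_ne_zero _ (hne 1 le_rfl (by omega) 1 (by omega)))
  have h2 : E * Nat.card (Hsm.map (𝓝 := 𝓝) (i m) 3).ker = 1 := by
    apply Nat.eq_of_mul_eq_mul_left (Nat.pos_of_ne_zero h0)
    rw [← h1, mul_one]
  have h3 : Nat.card (Hsm.map (𝓝 := 𝓝) (i m) 3).ker = 1 := Nat.eq_one_of_mul_eq_one_left h2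
  have h4 := (Nat.card_eq_one_iff_unique.1 h3).1
  intro x hx
  have h5 : (⟨x, hx⟩ : (Hsm.map (𝓝 := 𝓝) (i m) 3).ker) = 0 := Subsingleton.elim _ _
  exact congrArg Subtype.val h5

end Fermat.Agent.S55
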