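/-
S55 / block CHI2 : LEMMA CHI2 under the name announced by helper139
(`CyclicCover.pull_injective_of_chi2`), deduced from helper175's `Formal/Chi2/Cover.lean`.
-/
import Fermat.Agent.S55.Formal.Chi2.Cover

set_option autoImplicit false

namespace Fermat.Agent.S55

variable {G : Type} [Group G]

/-- **LEMMA CHI2.** -/
theorem CyclicCover.pull_injective_of_chi2 {𝓝 : LevelSys G} {X' X : Type} [MulAction G X']
    [MulAction G X] [Finite X'] [Finite X] [SmoothSet 𝓝 X'] [SmoothSet 𝓝 X] {u : X' →[G] X}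
    {σ : X' →[G] X'} {p : ℕ} (hp : p.Prime) (h : CyclicCover u σ p) (A : Type) [AddCommGroup A]
    [DistribMulAction G A] [Smooth 𝓝 A] (hA : ∀ a : A, p • a = 0)
    (hfin : ∀ i ≤ 2, Finite (Hsm 𝓝 (IndMod X A) i))
    (hchi : Nat.card (Hsm 𝓝 (IndMod X' A) 0) * Nat.card (Hsm 𝓝 (IndMod X' A) 2) *
        Nat.card (Hsm 𝓝 (IndMod X A) 1) ^ p =
      Nat.card (Hsm 𝓝 (IndMod X' A) 1) *
        (Nat.card (Hsm 𝓝 (IndMod X A) 0) * Nat.card (Hsm 𝓝 (IndMod X A) 2)) ^ p) :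
    Function.Injective (Hsm.map (𝓝 := 𝓝) (IndMod.pull A u) 3) := by
  have : Fact p.Prime := ⟨hp⟩
  refine Chi2.pull_injective_of_chi2 hA h
    ⟨hfin 0 (by norm_num), hfin 1 (by norm_num), hfin 2 le_rfl⟩ ?_
  unfold Chi2.ev Chi2.od
  rw [hchi, Nat.mul_comm]

end Fermat.Agent.S55
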